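/-
Programme JAC (S25), work package A6 (formal smoothness), part 2b (helper85).

The constant family: for `k`-algebras `B → B'` (surjective, nilpotent kernel) and a `k`-algebra `A`,
the ring homomorphism `B ⊗[k] A → B' ⊗[k] A` is surjective with nilpotent kernel.  These are the
hypotheses `hsurjᵢ`, `hnilᵢ` of `LiftDiagram85.nonempty_diagramLift` for `Rᵢ = B ⊗[k] Aᵢ`,
`Rᵢ' = B' ⊗[k] Aᵢ`.  Mathlib only.
-/
import Mathlib

set_option autoImplicit false

open TensorProduct

universe u v w

namespace Fermat.Agent.JAC.Smooth.LiftConst85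

variable {k : Type u} [CommRing k] {B B' : Type v} [CommRing B] [CommRing B'] [Algebra k B]
  [Algebra k B'] (A : Type w) [CommRing A] [Algebra k A]

/-- `B ⊗[k] A → B' ⊗[k] A` is surjective if `B → B'` is. -/
theorem map_id_surjective (φ : B →ₐ[k] B') (hφ : Function.Surjective φ) :
    Function.Surjective (Algebra.TensorProduct.map φ (AlgHom.id k A)) :=
  Algebra.TensorProduct.map_surjective φ (AlgHom.id k A) hφ Function.surjective_id

/-- The kernel of `B ⊗[k] A → B' ⊗[k] A` is nilpotent if `B → B'` is surjective with nilpotent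
kernel. -/
theorem ker_map_id_isNilpotent (φ : B →ₐ[k] B') (hφ : Function.Surjective φ)
    (hnil : IsNilpotent (RingHom.ker φ)) :
    IsNilpotent (RingHom.ker (Algebra.TensorProduct.map φ (AlgHom.id k A))) := by
  rw [Algebra.TensorProduct.rTensor_ker φ hφ]
  obtain ⟨n, hn⟩ := hnil
  refine ⟨n, ?_⟩
  rw [← Ideal.map_pow, hn, Ideal.zero_eq_bot, Ideal.map_bot]
  rfl

/-- Square-zero case. -/
theorem ker_map_id_isNilpotent_of_sq_eq_bot (φ : B →ₐ[k] B') (hφ : Function.Surjective φ)
    (hsq : (RingHom.ker φ) ^ 2 = ⊥) :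
    IsNilpotent (RingHom.ker (Algebra.TensorProduct.map φ (AlgHom.id k A))) :=
  ker_map_id_isNilpotent A φ hφ ⟨2, hsq⟩

/-- The quotient case `B' = B ⧸ I`. -/
theorem ker_map_mk_id_isNilpotent (I : Ideal B) (hI : IsNilpotent I) :
    IsNilpotent (RingHom.ker
      (Algebra.TensorProduct.map (Ideal.Quotient.mkₐ k I) (AlgHom.id k A))) := by
  apply ker_map_id_isNilpotent A _ (Ideal.Quotient.mkₐ_surjective k I)
  have : RingHom.ker (Ideal.Quotient.mkₐ k I) = I := Ideal.Quotient.mkₐ_ker k I
  rw [this]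
  exact hI

end Fermat.Agent.JAC.Smooth.LiftConst85
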