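/-
Programme JAC (S25), chapter Smooth.  Owner: helper70.

**(FS) for the constant family.**  For a `k`-algebra `B` and a nilpotent ideal `I`, every rigid
line diagram over the constant family `(B ⧸ I) ⊗[k] A_•` lifts to a rigid line diagram over
`B ⊗[k] A_•`; in class form: `Cart33.baseChangeClass (familyHom (mkₐ k I) t s)` is surjective on
rigid classes.
-/
import Mathlib
import Fermat.Agent.JAC.Core.AlgAtlas36
import Fermat.Agent.JAC.Grp.Cart33
import Fermat.Agent.JAC.Lift.CartLift70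
import Fermat.Agent.JAC.Smooth.LiftConst85

set_option autoImplicit false

universe u

namespace Fermat.Agent.JAC.Smooth.ClassLift70

open scoped TensorProduct
open scoped Fermat.Agent.JAC.Core.ConstFamily36
open Fermat.Agent.JAC.Core.Defs36 Fermat.Agent.JAC.Core.Cart36 Fermat.Agent.JAC.Core.ConstFamily36
  Fermat.Agent.JAC.Core.AlgAtlas36 Fermat.Agent.JAC.Grp.Diag33 Fermat.Agent.JAC.Grp.Cart33
  Fermat.Agent.JAC.Lift.CartLift70 Fermat.Agent.JAC.Smooth.LiftConst85

variable {k : Type u} [Field k] {A0 A1 A01 : Type u} [CommRing A0] [CommRing A1] [CommRing A01]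
  [Algebra k A0] [Algebra k A1] [Algebra k A01] [Algebra A0 A01] [Algebra A1 A01]
  [IsScalarTower k A0 A01] [IsScalarTower k A1 A01] (t : A0) (s : A1)
  [IsLocalization.Away t A01] [IsLocalization.Away s A01] (e : A01 →ₐ[k] k)
  (B : Type u) [CommRing B] [Algebra k B] (I : Ideal B)

/-- The rigidifying maps of `B` and `B ⧸ I` are compatible. -/
theorem rigHom_comm (r : B ⊗[k] A01) :
    Ideal.Quotient.mk I (rigHom B e r) =
      rigHom (B ⧸ I) e ((familyHom (Ideal.Quotient.mkₐ k I) t s).ψ01 r) := by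
  induction r using TensorProduct.induction_on with
  | zero => simp
  | tmul b a =>
    change Ideal.Quotient.mk I (rigHom B e (b ⊗ₜ a)) =
      rigHom (B ⧸ I) e (Ideal.Quotient.mkₐ k I b ⊗ₜ a)
    rw [rigHom_tmul, rigHom_tmul, map_mul]
    rfl
  | add x y hx hy => simp only [map_add, hx, hy]

/-- **Rigid line diagrams lift along nilpotent thickenings of the base.** -/
theorem exists_rigid_lift (hI : IsNilpotent I)
    (N' : LineDiag ((1 : B ⧸ I) ⊗ₜ[k] t) ((1 : B ⧸ I) ⊗ₜ[k] s) ((B ⧸ I) ⊗[k] A01))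
    (hN' : letI := rigAlgebra (B ⧸ I) e; LineDiag.IsRigid (B := B ⧸ I) N') :
    ∃ N : LineDiag ((1 : B) ⊗ₜ[k] t) ((1 : B) ⊗ₜ[k] s) (B ⊗[k] A01),
      (letI := rigAlgebra B e; LineDiag.IsRigid (B := B) N) ∧
        Nonempty (LineDiag.CartHom (familyHom (Ideal.Quotient.mkₐ k I) t s) N N') := by
  obtain ⟨N, ⟨c⟩⟩ := exists_cartHom_lift (familyHom (Ideal.Quotient.mkₐ k I) t s)
    (map_id_surjective A0 _ (Ideal.Quotient.mkₐ_surjective k I))
    (ker_map_mk_id_isNilpotent A0 I hI)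
    (map_id_surjective A1 _ (Ideal.Quotient.mkₐ_surjective k I))
    (ker_map_mk_id_isNilpotent A1 I hI)
    (map_id_surjective A01 _ (Ideal.Quotient.mkₐ_surjective k I))
    (ker_map_mk_id_isNilpotent A01 I hI) N'
  refine ⟨N, ?_, ⟨c⟩⟩
  letI := rigAlgebra B e
  letI := rigAlgebra (B ⧸ I) e
  refine isRigid_of_cartHom (familyHom (Ideal.Quotient.mkₐ k I) t s) (Ideal.Quotient.mk I)
    Ideal.Quotient.mk_surjective ?_ (fun r => rigHom_comm t s e B I r) c hN'
  rw [Ideal.mk_ker]
  exact hI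

/-- **(FS), class form**: base change along `B → B ⧸ I` (`I` nilpotent) is surjective on rigid
classes. -/
theorem exists_rigid_lift_class (hI : IsNilpotent I) (ξ' : Cl k A0 A1 A01 t s (B ⧸ I))
    (hξ' : IsRigidCl e (B ⧸ I) ξ') :
    ∃ ξ : Cl k A0 A1 A01 t s B, IsRigidCl e B ξ ∧
      baseChangeClass (familyHom (Ideal.Quotient.mkₐ k I) t s) ξ = ξ' := by
  induction ξ' using Quotient.inductionOn with
  | _ N' =>
    letI := rigAlgebra (B ⧸ I) e
    have hN' : LineDiag.IsRigid (B := B ⧸ I) N' := (mem_rigidSubgroup_iff (B ⧸ I) N').mp hξ'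
    obtain ⟨N, hN, hc⟩ := exists_rigid_lift t s e B I hI N' hN'
    refine ⟨cls N, ?_, (baseChangeClass_cls_eq_iff _ N N').mpr hc⟩
    letI := rigAlgebra B e
    exact (mem_rigidSubgroup_iff B N).mpr hN

end Fermat.Agent.JAC.Smooth.ClassLift70
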