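/-
Programme JAC (S25), chapter Smooth.  Owner: helper70.

**The field `formallySmooth` of `AlgAtlas36.AlgAtlas`.**  A chart `(R, x, W)` of the functor of
rigid degree-zero classes (fields `x_rigid`, `x_degZero`, `W_iff`, `inj`, `mem_iff` of
`AlgAtlas`) has a formally smooth chart ring: rigid classes lift along square-zero thickenings
(`ClassLift70`), the lift stays in the chart because the chart is defined pointwise on residue
fields, and injectivity identifies the resulting algebra map.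

The functoriality laws of `bc` that are used are collected in `BcLaws` (they are proved in
`Grp/ConstBc33`).
-/
import Mathlib
import Fermat.Agent.JAC.Smooth.ClassLift70

set_option autoImplicit false

universe u

namespace Fermat.Agent.JAC.Smooth.AtlasSmooth70

open scoped TensorProduct
open scoped Fermat.Agent.JAC.Core.ConstFamily36
open Fermat.Agent.JAC.Core.Defs36 Fermat.Agent.JAC.Core.Cart36 Fermat.Agent.JAC.Core.ConstFamily36
  Fermat.Agent.JAC.Core.AlgAtlas36 Fermat.Agent.JAC.Core.Degree36 Fermat.Agent.JAC.Grp.Diag33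
  Fermat.Agent.JAC.Grp.Cart33 Fermat.Agent.JAC.Smooth.ClassLift70

variable {k : Type u} [Field k] {A0 A1 A01 : Type u} [CommRing A0] [CommRing A1] [CommRing A01]
  [Algebra k A0] [Algebra k A1] [Algebra k A01] [Algebra A0 A01] [Algebra A1 A01]
  [IsScalarTower k A0 A01] [IsScalarTower k A1 A01] (t : A0) (s : A1)
  [IsLocalization.Away t A01] [IsLocalization.Away s A01] (e : A01 →ₐ[k] k)

/-- The functoriality laws of `AlgAtlas36.bc` used below. -/
structure BcLaws : Prop where
  comp : ∀ (B B' B'' : Type u) [CommRing B] [CommRing B'] [CommRing B''] [Algebra k B]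
    [Algebra k B'] [Algebra k B''] (ψ : B →ₐ[k] B') (ψ' : B' →ₐ[k] B'')
    (ξ : Cl k A0 A1 A01 t s B), bc (ψ'.comp ψ) ξ = bc ψ' (bc ψ ξ)
  rigid : ∀ (B B' : Type u) [CommRing B] [CommRing B'] [Algebra k B] [Algebra k B']
    (ψ : B →ₐ[k] B') (ξ : Cl k A0 A1 A01 t s B), IsRigidCl e B ξ → IsRigidCl e B' (bc ψ ξ)
  eq_class : ∀ (B B' : Type u) [CommRing B] [CommRing B'] [Algebra k B] [Algebra k B']
    (ψ : B →ₐ[k] B') (ξ : Cl k A0 A1 A01 t s B),
    bc ψ ξ = baseChangeClass (familyHom ψ t s) ξ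

variable {t s e}

theorem BcLaws.degZero (laws : BcLaws t s e) {B B' : Type u} [CommRing B] [CommRing B']
    [Algebra k B] [Algebra k B'] (ψ : B →ₐ[k] B') (ξ : Cl k A0 A1 A01 t s B)
    (h : IsDegZero B ξ) : IsDegZero B' (bc ψ ξ) := by
  intro K _ _ _ χ
  rw [← laws.comp]
  exact h K (χ.comp ψ)

/-- An algebra map to a reduced ring kills a square-zero ideal. -/
theorem algHom_eq_zero_of_sq {B K : Type u} [CommRing B] [Algebra k B] [CommRing K] [IsReduced K]
    [Algebra k K] (I : Ideal B) (hI : I ^ 2 = ⊥) (ψ : B →ₐ[k] K) : ∀ a ∈ I, ψ a = 0 := by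
  intro a ha
  have h0 : a ^ 2 = 0 := by
    have : a ^ 2 ∈ I ^ 2 := Ideal.pow_mem_pow ha 2
    rw [hI] at this
    simpa using this
  have : ψ a ^ 2 = 0 := by rw [← map_pow, h0, map_zero]
  exact (pow_eq_zero_iff two_ne_zero).mp this

/-- Degree zero is insensitive to square-zero thickenings. -/
theorem isDegZero_of_mk (laws : BcLaws t s e) {B : Type u} [CommRing B] [Algebra k B]
    (I : Ideal B) (hI : I ^ 2 = ⊥) (ξ : Cl k A0 A1 A01 t s B)
    (h : IsDegZero (B ⧸ I) (bc (Ideal.Quotient.mkₐ k I) ξ)) : IsDegZero B ξ := by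
  intro K _ _ _ ψ
  have hker := algHom_eq_zero_of_sq I hI ψ
  have hψ : (Ideal.Quotient.liftₐ I ψ hker).comp (Ideal.Quotient.mkₐ k I) = ψ := by
    ext a
    exact Ideal.Quotient.lift_mk I ψ.toRingHom hker
  rw [← hψ, laws.comp]
  exact h K _

/-- **(FS) for the functor of rigid degree-zero classes.** -/
theorem exists_lift (laws : BcLaws t s e) {B : Type u} [CommRing B] [Algebra k B]
    (I : Ideal B) (hI : I ^ 2 = ⊥) (ξ' : Cl k A0 A1 A01 t s (B ⧸ I))
    (hr : IsRigidCl e (B ⧸ I) ξ') (hd : IsDegZero (B ⧸ I) ξ') :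
    ∃ ξ : Cl k A0 A1 A01 t s B, IsRigidCl e B ξ ∧ IsDegZero B ξ ∧
      bc (Ideal.Quotient.mkₐ k I) ξ = ξ' := by
  obtain ⟨ξ, hξr, hξ⟩ := exists_rigid_lift_class t s e B I ⟨2, hI⟩ ξ' hr
  rw [← laws.eq_class] at hξ
  exact ⟨ξ, hξr, isDegZero_of_mk laws I hI ξ (hξ ▸ hd), hξ⟩

/-- **Chart rings of the Picard functor are formally smooth** (the field `formallySmooth` of
`AlgAtlas36.AlgAtlas` from the fields `x_rigid`, `x_degZero`, `W_iff`, `inj`, `mem_iff` of one
chart). -/
theorem formallySmooth_of_chart (laws : BcLaws t s e) (R : Type u) [CommRing R] [Algebra k R]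
    (x : Cl k A0 A1 A01 t s R) (x_rigid : IsRigidCl e R x) (x_degZero : IsDegZero R x)
    (W : ∀ (K : Type u) [Field K] [Algebra k K], Cl k A0 A1 A01 t s K → Prop)
    (W_iff : ∀ (K L : Type u) [Field K] [Field L] [Algebra k K] [Algebra k L]
      (ψ : K →ₐ[k] L) (ξ : Cl k A0 A1 A01 t s K), IsRigidCl e K ξ → IsDegZero K ξ →
      (W L (bc ψ ξ) ↔ W K ξ))
    (inj : ∀ (B : Type u) [CommRing B] [Algebra k B] (φ ψ : R →ₐ[k] B),
      bc φ x = bc ψ x → φ = ψ)
    (mem_iff : ∀ (B : Type u) [CommRing B] [Algebra k B] (ξ : Cl k A0 A1 A01 t s B),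
      IsRigidCl e B ξ → IsDegZero B ξ →
      ((∃ ψ : R →ₐ[k] B, bc ψ x = ξ) ↔
        ∀ p : PrimeSpectrum B, W p.asIdeal.ResidueField (bc (toResidue B p) ξ))) :
    Algebra.FormallySmooth k R := by
  apply Algebra.FormallySmooth.of_comp_surjective
  intro B _ _ I hI ubar
  -- the point of the functor over `B ⧸ I` and its lift
  have hr' : IsRigidCl e (B ⧸ I) (bc ubar x) := laws.rigid _ _ ubar x x_rigid
  have hd' : IsDegZero (B ⧸ I) (bc ubar x) := laws.degZero ubar x x_degZero
  obtain ⟨ξ, hξr, hξd, hξ⟩ := exists_lift laws I hI (bc ubar x) hr' hd'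
  -- the lift lies in the chart, pointwise
  have hmem : ∃ ψ : R →ₐ[k] B, bc ψ x = ξ := by
    rw [mem_iff B ξ hξr hξd]
    intro p
    have hker := algHom_eq_zero_of_sq I hI (toResidue (k := k) B p)
    have hχ : (Ideal.Quotient.liftₐ I (toResidue B p) hker).comp (Ideal.Quotient.mkₐ k I) =
        toResidue B p := by
      ext a
      exact Ideal.Quotient.lift_mk I (toResidue B p).toRingHom hker
    set φ : R →ₐ[k] p.asIdeal.ResidueField :=
      (Ideal.Quotient.liftₐ I (toResidue B p) hker).comp ubar with hφ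
    have h1 : bc (toResidue B p) ξ = bc φ x := by
      rw [← hχ, laws.comp, hξ, ← laws.comp]
    rw [h1]
    -- a point of the chart with values in a field satisfies `W`
    have hr'' : IsRigidCl e p.asIdeal.ResidueField (bc φ x) := laws.rigid _ _ φ x x_rigid
    have hd'' : IsDegZero p.asIdeal.ResidueField (bc φ x) := laws.degZero φ x x_degZero
    have h2 := (mem_iff p.asIdeal.ResidueField (bc φ x) hr'' hd'').mp ⟨φ, rfl⟩
      ⟨⊥, Ideal.isPrime_bot⟩
    exact (W_iff _ _ _ _ hr'' hd'').mp h2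
  obtain ⟨u, hu⟩ := hmem
  refine ⟨u, inj _ _ _ ?_⟩
  rw [laws.comp, hu, hξ]

end Fermat.Agent.JAC.Smooth.AtlasSmooth70
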