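/-
Programme JAC (S25), chapter Smooth.  Owner: helper70.

The functoriality laws `BcLaws` of `AlgAtlas36.bc` (from helper33's `Grp/ConstBc33`) and the
hypothesis-free form of `AtlasSmooth70`: (FS) for the functor of rigid degree-zero classes and
formal smoothness of the chart rings of an `AlgAtlas`.
-/
import Mathlib
import Fermat.Agent.JAC.Smooth.AtlasSmooth70
import Fermat.Agent.JAC.Grp.ConstBc33

set_option autoImplicit false

universe u

namespace Fermat.Agent.JAC.Smooth.AtlasSmoothFinal70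

open scoped TensorProduct
open scoped Fermat.Agent.JAC.Core.ConstFamily36
open Fermat.Agent.JAC.Core.Defs36 Fermat.Agent.JAC.Core.Cart36 Fermat.Agent.JAC.Core.ConstFamily36
  Fermat.Agent.JAC.Core.AlgAtlas36 Fermat.Agent.JAC.Grp.ConstBc33
  Fermat.Agent.JAC.Smooth.AtlasSmooth70

variable {k : Type u} [Field k] {A0 A1 A01 : Type u} [CommRing A0] [CommRing A1] [CommRing A01]
  [Algebra k A0] [Algebra k A1] [Algebra k A01] [Algebra A0 A01] [Algebra A1 A01]
  [IsScalarTower k A0 A01] [IsScalarTower k A1 A01] (t : A0) (s : A1)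
  [IsLocalization.Away t A01] [IsLocalization.Away s A01] (e : A01 →ₐ[k] k)

/-- The laws of `bc` hold. -/
theorem bcLaws : BcLaws t s e where
  comp _ _ _ _ _ _ _ _ _ ψ ψ' ξ := (bc_bc ψ ψ' ξ).symm
  rigid _ _ _ _ _ _ ψ ξ h := isRigidCl_bc e ψ ξ h
  eq_class _ _ _ _ _ _ ψ ξ := by rw [bc_eq_baseChangeClass]

variable {t s e}

/-- **(FS) for the functor of rigid degree-zero classes**: they lift along square-zero
thickenings of the base. -/
theorem exists_lift {B : Type u} [CommRing B] [Algebra k B] (I : Ideal B) (hI : I ^ 2 = ⊥)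
    (ξ' : Cl k A0 A1 A01 t s (B ⧸ I)) (hr : IsRigidCl e (B ⧸ I) ξ')
    (hd : IsDegZero (B ⧸ I) ξ') :
    ∃ ξ : Cl k A0 A1 A01 t s B, IsRigidCl e B ξ ∧ IsDegZero B ξ ∧
      bc (Ideal.Quotient.mkₐ k I) ξ = ξ' :=
  AtlasSmooth70.exists_lift (bcLaws t s e) I hI ξ' hr hd

/-- **Chart rings of the Picard functor are formally smooth**: the field `formallySmooth` of
`AlgAtlas36.AlgAtlas` follows from the fields `x_rigid`, `x_degZero`, `W_iff`, `inj`, `mem_iff`
of the same chart. -/
theorem formallySmooth_of_chart (R : Type u) [CommRing R] [Algebra k R]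
    (x : Cl k A0 A1 A01 t s R) (x_rigid : IsRigidCl e R x) (x_degZero : IsDegZero R x)
    (W : ∀ (K : Type u) [Field K] [Algebra k K], Cl k A0 A1 A01 t s K → Prop)
    (W_iff : ∀ (K L : Type u) [Field K] [Field L] [Algebra k K] [Algebra k L]
      (ψ : K →ₐ[k] L) (ξ : Cl k A0 A1 A01 t s K), IsRigidCl e K ξ → IsDegZero K ξ →
      (W L (bc ψ ξ) ↔ W K ξ))
    (inj : ∀ (B : Type u) [CommRing B] [Algebra k B] (φ ψ : R →ₐ[k] B),
      bc φ x = bc ψ x → φ = ψ)
    (mem_iff : ∀ (B : Type u) [CommRing B] [Algebra k B] (ξ : Cl k A0 A1 A01 t s B),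
      IsRigidCl e B ξ → IsDegZero B ξ →
      ((∃ ψ : R →ₐ[k] B, bc ψ x = ξ) ↔
        ∀ p : PrimeSpectrum B, W p.asIdeal.ResidueField (bc (toResidue B p) ξ))) :
    Algebra.FormallySmooth k R :=
  AtlasSmooth70.formallySmooth_of_chart (bcLaws t s e) R x x_rigid x_degZero W W_iff inj mem_iff

end Fermat.Agent.JAC.Smooth.AtlasSmoothFinal70
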