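/-
Programme JAC (S25), chapter Smooth.  Owner: helper70.

The brick `Brick.FS` of `Hilb/ChartSpec24` (formal smoothness of the chart rings of the Picard
functor), from `Smooth/AtlasSmoothFinal70.formallySmooth_of_chart`.
-/
import Mathlib
import Fermat.Agent.JAC.Hilb.ChartSpec24
import Fermat.Agent.JAC.Smooth.AtlasSmoothFinal70

set_option autoImplicit false

universe u

namespace Fermat.Agent.JAC.Smooth.BrickFS70

open Fermat.Agent.JAC.Core.AlgAtlas36 Fermat.Agent.JAC.Hilb.ChartSpec24

variable {k : Type u} [Field k] {A0 A1 A01 : Type u} [CommRing A0] [CommRing A1] [CommRing A01]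
  [Algebra k A0] [Algebra k A1] [Algebra k A01] [Algebra A0 A01] [Algebra A1 A01]
  [IsScalarTower k A0 A01] [IsScalarTower k A1 A01] (t : A0) (s : A1)
  [IsLocalization.Away t A01] [IsLocalization.Away s A01]

/-- **The brick (FS).** -/
theorem fs (e : A01 →ₐ[k] k) : Brick.FS k A0 A1 A01 t s e := by
  intro R _ _ x hr hd W W_iff inj mem_iff
  exact Fermat.Agent.JAC.Smooth.AtlasSmoothFinal70.formallySmooth_of_chart (t := t) (s := s) (e := e) R x hr hd W
    (fun K L _ _ _ _ ψ ξ _ _ => W_iff K L ψ ξ) inj mem_iff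

end Fermat.Agent.JAC.Smooth.BrickFS70
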