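import Mathlib

/-!
# JAC / Smooth / ChartSmooth70 : chart rings of a formally smooth functor are formally smooth

Abstract statement (A6d of the JAC plan).  Let `F` be a functor on commutative `k`-algebras and
`(R, x)`, `x ∈ F(R)`, a *chart*: the induced map `Hom_k(R, B) → F(B)`, `φ ↦ F(φ)(x)` is injective
for all `B` (`ChartInj`) and its image is a *pointwise defined* subfunctor (`ChartPointwise`):
`ξ ∈ F(B)` comes from the chart as soon as all its field-valued specialisations do.  If moreover
`F(B) → F(B ⧸ I)` is surjective for every square-zero ideal `I` (`LiftsSquareZero`), then `R` is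
a formally smooth `k`-algebra.

`chartPointwise_of_residue` derives `ChartPointwise` from a characterisation of the image by a
predicate `W` on field-valued points, invariant under field extensions, tested on the residue
fields of `B` (shape (Ch2) of the plan).
-/

set_option autoImplicit false

open CategoryTheory

namespace Fermat.Agent.JAC.Smooth.ChartSmooth70

universe u

variable {k : Type u} [CommRing k] (F : CommAlgCat.{u} k ⥤ Type u)
  {R : Type u} [CommRing R] [Algebra k R] (x : F.obj (CommAlgCat.of k R))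

/-- (Ch1): the chart map `Hom_k(R, B) → F(B)` is injective. -/
def ChartInj : Prop :=
  ∀ (B : Type u) [CommRing B] [Algebra k B] (φ ψ : R →ₐ[k] B),
    F.map (CommAlgCat.ofHom φ) x = F.map (CommAlgCat.ofHom ψ) x → φ = ψ

/-- The image of the chart map is a pointwise defined subfunctor: a point of `F(B)` all of whose
field-valued specialisations come from the chart comes from the chart. -/
def ChartPointwise : Prop :=
  ∀ (B : Type u) [CommRing B] [Algebra k B] (ξ : F.obj (CommAlgCat.of k B)),
    (∀ (K : Type u) [Field K] [Algebra k K] (ψ : B →ₐ[k] K),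
      ∃ φ : R →ₐ[k] K, F.map (CommAlgCat.ofHom φ) x = F.map (CommAlgCat.ofHom ψ) ξ) →
    ∃ φ : R →ₐ[k] B, F.map (CommAlgCat.ofHom φ) x = ξ

/-- (FS): `F(B) → F(B ⧸ I)` is surjective for square-zero ideals `I`. -/
def LiftsSquareZero : Prop :=
  ∀ (B : Type u) [CommRing B] [Algebra k B] (I : Ideal B), I ^ 2 = ⊥ →
    Function.Surjective (F.map (CommAlgCat.ofHom (Ideal.Quotient.mkₐ k I)))

variable {F x}

/-- **Chart rings of a formally smooth functor are formally smooth.** -/
theorem formallySmooth_of_chart (h1 : ChartInj F x) (h2 : ChartPointwise F x)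
    (h3 : LiftsSquareZero F) : Algebra.FormallySmooth k R := by
  apply Algebra.FormallySmooth.of_comp_surjective
  intro B _ _ I hI ubar
  obtain ⟨ξ, hξ⟩ := h3 B I hI (F.map (CommAlgCat.ofHom ubar) x)
  obtain ⟨u, hu⟩ := h2 B ξ (fun K _ _ ψ => by
    have hker : ∀ a ∈ I, ψ a = 0 := fun a ha => by
      have h0 : a ^ 2 = 0 := by
        have : a ^ 2 ∈ I ^ 2 := Ideal.pow_mem_pow ha 2
        rw [hI] at this
        simpa using this
      have : ψ a ^ 2 = 0 := by rw [← map_pow, h0, map_zero]
      exact (pow_eq_zero_iff two_ne_zero).mp this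
    have hψ : (Ideal.Quotient.liftₐ I ψ hker).comp (Ideal.Quotient.mkₐ k I) = ψ := by
      ext a
      exact Ideal.Quotient.lift_mk I ψ.toRingHom hker
    refine ⟨(Ideal.Quotient.liftₐ I ψ hker).comp ubar, ?_⟩
    rw [CommAlgCat.ofHom_comp, Functor.map_comp_apply, ← hξ, ← Functor.map_comp_apply,
      ← CommAlgCat.ofHom_comp, hψ])
  refine ⟨u, h1 _ _ _ ?_⟩
  rw [CommAlgCat.ofHom_comp, Functor.map_comp_apply, hu, hξ]

/-- `ChartPointwise` from a residue-field characterisation of the image of the chart map by a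
predicate on field-valued points which is invariant under field extensions. -/
theorem chartPointwise_of_residue
    (W : ∀ (K : Type u) [Field K] [Algebra k K], F.obj (CommAlgCat.of k K) → Prop)
    (hWext : ∀ (K K' : Type u) [Field K] [Field K'] [Algebra k K] [Algebra k K']
      (i : K →ₐ[k] K') (ξ : F.obj (CommAlgCat.of k K)),
      W K ξ ↔ W K' (F.map (CommAlgCat.ofHom i) ξ))
    (hW : ∀ (B : Type u) [CommRing B] [Algebra k B] (ξ : F.obj (CommAlgCat.of k B)),
      (∃ φ : R →ₐ[k] B, F.map (CommAlgCat.ofHom φ) x = ξ) ↔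
        ∀ p : PrimeSpectrum B, W p.asIdeal.ResidueField
          (F.map (CommAlgCat.ofHom (IsScalarTower.toAlgHom k B p.asIdeal.ResidueField)) ξ)) :
    ChartPointwise F x := by
  intro B _ _ ξ hξ
  rw [hW]
  intro p
  obtain ⟨φ, hφ⟩ := hξ p.asIdeal.ResidueField (IsScalarTower.toAlgHom k B p.asIdeal.ResidueField)
  rw [← hφ]
  -- the point `F φ x` of the field `κ(p)` comes from the chart, hence satisfies `W` at the
  -- residue field of the zero ideal of `κ(p)`, which is `κ(p)` itself
  have h1 := (hW p.asIdeal.ResidueField (F.map (CommAlgCat.ofHom φ) x)).mp ⟨φ, rfl⟩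
    ⟨⊥, Ideal.isPrime_bot⟩
  exact (hWext _ _ _ _).mpr h1

section Absolute

/-!
### Absolute form

The same statement for a functor `F` on all commutative rings equipped with a natural
"structure map" `str : F(B) → (k →+* B)` (so that `F` is really a functor on `k`-algebras:
`F(B) = Σ ρ : k →+* B, F_ρ(B)`), with the chart hypotheses in the shape of
`Fermat.Agent.JAC.Repr.Chart10.IsOpenChart` (injectivity + the chart locus of every point is the
complement of `V(J)` for an ideal `J`).
-/

variable {k : Type u} [CommRing k] (F : CommRingCat.{u} ⥤ Type u)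
  (str : ∀ B : CommRingCat.{u}, F.obj B → (k →+* B))
  (hstr : ∀ (B B' : CommRingCat.{u}) (φ : B ⟶ B') (ξ : F.obj B),
    str B' (F.map φ ξ) = φ.hom.comp (str B ξ))
  {R : CommRingCat.{u}} (x : F.obj R)

include hstr in
/-- **Chart rings of a formally smooth functor are formally smooth, absolute form.**  The
`k`-algebra structure on the chart ring `R` is the one given by the point `x`. -/
theorem formallySmooth_of_openChart
    (hinj : ∀ ⦃B : CommRingCat.{u}⦄ (φ ψ : R ⟶ B), F.map φ x = F.map ψ x → φ = ψ)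
    (hopen : ∀ (B : CommRingCat.{u}) (ξ : F.obj B), ∃ J : Ideal B,
      ∀ (B' : CommRingCat.{u}) (φ : B ⟶ B'),
        (∃ ψ : R ⟶ B', F.map ψ x = F.map φ ξ) ↔ Ideal.map φ.hom J = ⊤)
    (hFS : ∀ (B : CommRingCat.{u}) (I : Ideal B), I ^ 2 = ⊥ →
      ∀ (ξbar : F.obj (CommRingCat.of (B ⧸ I))) (ρ : k →+* B),
        (Ideal.Quotient.mk I).comp ρ = str _ ξbar →
        ∃ ξ : F.obj B, F.map (CommRingCat.ofHom (Ideal.Quotient.mk I)) ξ = ξbar ∧ str B ξ = ρ) :
    @Algebra.FormallySmooth k R _ _ (str R x).toAlgebra := by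
  let _ : Algebra k R := (str R x).toAlgebra
  apply Algebra.FormallySmooth.of_comp_surjective
  intro B _ _ I hI ubar
  -- the point of `F(B ⧸ I)` defined by `ubar`
  set ξbar : F.obj (CommRingCat.of (B ⧸ I)) :=
    F.map (CommRingCat.ofHom (ubar : R →+* B ⧸ I)) x with hξbar
  have hρ : (Ideal.Quotient.mk I).comp (algebraMap k B) = str _ ξbar := by
    rw [hξbar, hstr]
    ext c
    simp only [RingHom.coe_comp, Function.comp_apply, CommRingCat.hom_ofHom, RingHom.coe_coe]
    exact (ubar.commutes c).symm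
  obtain ⟨ξ, hξ, hξstr⟩ := hFS (CommRingCat.of B) I hI ξbar (algebraMap k B) hρ
  obtain ⟨J, hJ⟩ := hopen (CommRingCat.of B) ξ
  -- `J = ⊤`, by testing on residue fields at maximal ideals
  have hJtop : J = ⊤ := by
    by_contra hne
    obtain ⟨m, hm, hJm⟩ := Ideal.exists_le_maximal J hne
    have hIm : I ≤ m := by
      intro a ha
      have h0 : a ^ 2 = 0 := by
        have : a ^ 2 ∈ I ^ 2 := Ideal.pow_mem_pow ha 2
        rw [hI] at this
        simpa using this
      exact hm.isPrime.mem_of_pow_mem 2 (h0 ▸ m.zero_mem)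
    -- the composite `B ⧸ I → B ⧸ m`
    let φbar : B ⧸ I →+* B ⧸ m := Ideal.Quotient.factor hIm
    have hfac : φbar.comp (Ideal.Quotient.mk I) = Ideal.Quotient.mk m := by
      ext a
      simp [φbar]
    have h1 : ∃ ψ : R ⟶ CommRingCat.of (B ⧸ m),
        F.map ψ x = F.map (CommRingCat.ofHom (Ideal.Quotient.mk m)) ξ := by
      refine ⟨CommRingCat.ofHom (φbar.comp (ubar : R →+* B ⧸ I)), ?_⟩
      rw [CommRingCat.ofHom_comp, Functor.map_comp_apply, ← hξbar, ← hξ,
        ← Functor.map_comp_apply, ← CommRingCat.ofHom_comp, hfac]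
    have h2 := (hJ _ _).mp h1
    have h3 : Ideal.map (Ideal.Quotient.mk m) J = ⊥ := by
      rw [Ideal.map_eq_bot_iff_le_ker, Ideal.mk_ker]
      exact hJm
    rw [CommRingCat.hom_ofHom, h3] at h2
    have : Nontrivial (B ⧸ m) := Ideal.Quotient.nontrivial_iff.mpr hm.ne_top
    exact bot_ne_top h2
  obtain ⟨ψ, hψ⟩ := (hJ (CommRingCat.of B) (𝟙 _)).mpr (by
    rw [hJtop]; simp)
  rw [F.map_id] at hψ
  have hψ' : F.map ψ x = ξ := hψ
  -- `ψ` is a `k`-algebra homomorphism
  have hcomm : ∀ c : k, ψ.hom (algebraMap k R c) = algebraMap k B c := by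
    intro c
    have h4 := hstr R (CommRingCat.of B) ψ x
    rw [hψ', hξstr] at h4
    exact (congrArg (fun f : k →+* B => f c) h4).symm
  refine ⟨{ ψ.hom with commutes' := hcomm }, ?_⟩
  -- compare with `ubar` using injectivity of the chart
  have h5 : CommRingCat.ofHom ((Ideal.Quotient.mk I).comp ψ.hom) =
      CommRingCat.ofHom (ubar : R →+* B ⧸ I) := by
    apply hinj
    rw [CommRingCat.ofHom_comp, Functor.map_comp_apply, CommRingCat.ofHom_hom, hψ', hξ]
  ext r
  have h6 := congrArg (fun f : R ⟶ CommRingCat.of (B ⧸ I) => f.hom r) h5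
  simpa using h6

end Absolute

end Fermat.Agent.JAC.Smooth.ChartSmooth70
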