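/-
Programme JAC (S25), work package A6 (formal smoothness), part 1 (helper85).

Lifting along a surjective ring homomorphism `R → S` with nilpotent kernel:
linear maps out of projective modules, isomorphisms of projective modules,
finite projective modules, invertible modules.  Mathlib only.
-/
import Mathlib

set_option autoImplicit false

open TensorProduct

universe u v w

namespace Fermat.Agent.JAC.Smooth.LiftProj85

section Basic

variable {R : Type u} {S : Type v} [CommRing R] [CommRing S] [Algebra R S]

/-- The kernel of `M → S ⊗[R] M`, `x ↦ 1 ⊗ x`, is `I • M` for `I = ker (R → S)`, when `R → S` is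
surjective. -/
theorem ker_mk_one (hsurj : Function.Surjective (algebraMap R S))
    (M : Type w) [AddCommGroup M] [Module R M] :
    LinearMap.ker (TensorProduct.mk R S M 1) =
      (RingHom.ker (algebraMap R S)) • (⊤ : Submodule R M) := by
  set I : Ideal R := RingHom.ker (algebraMap R S) with hI
  have hex : Function.Exact (I.subtype : I →ₗ[R] R) (Algebra.linearMap R S) := by
    intro x
    constructor
    · intro hx
      exact ⟨⟨x, hx⟩, rfl⟩
    · rintro ⟨y, rfl⟩
      exact y.2
  have h1 := rTensor_exact M hex hsurj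
  apply Submodule.comap_injective_of_surjective (TensorProduct.lid R M).surjective
  rw [← LinearMap.ker_comp]
  have h2 : (TensorProduct.mk R S M 1) ∘ₗ (TensorProduct.lid R M).toLinearMap =
      LinearMap.rTensor M (Algebra.linearMap R S) := by
    ext m
    simp
  rw [h2, h1.linearMap_ker_eq]
  ext x
  simp only [LinearMap.mem_range, Submodule.mem_comap, LinearEquiv.coe_coe]
  constructor
  · rintro ⟨y, rfl⟩
    induction y using TensorProduct.induction_on with
    | zero => simp
    | tmul a m =>
      simp only [LinearMap.rTensor_tmul, Submodule.subtype_apply, TensorProduct.lid_tmul]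
      exact Submodule.smul_mem_smul a.2 Submodule.mem_top
    | add a b ha hb =>
      simp only [map_add]
      exact Submodule.add_mem _ ha hb
  · intro hx
    have : ∀ y ∈ I • (⊤ : Submodule R M), ∃ z : I ⊗[R] M,
        (LinearMap.rTensor M I.subtype) z = (TensorProduct.lid R M).symm y := by
      intro y hy
      refine Submodule.smul_induction_on hy ?_ ?_
      · intro r hr n _
        refine ⟨(⟨r, hr⟩ : I) ⊗ₜ n, ?_⟩
        simp [TensorProduct.smul_tmul']
      · rintro a b ⟨za, hza⟩ ⟨zb, hzb⟩
        exact ⟨za + zb, by simp [hza, hzb, TensorProduct.tmul_add]⟩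
    obtain ⟨z, hz⟩ := this _ hx
    exact ⟨z, by simp [hz]⟩

/-- If `1 ⊗ x = 0` in `S ⊗[R] M` then `x ∈ I • M`. -/
theorem mem_smul_top_of_tmul_eq_zero (hsurj : Function.Surjective (algebraMap R S))
    {M : Type w} [AddCommGroup M] [Module R M] {x : M} (hx : (1 : S) ⊗ₜ[R] x = 0) :
    x ∈ (RingHom.ker (algebraMap R S)) • (⊤ : Submodule R M) := by
  rw [← ker_mk_one hsurj M]
  exact hx


/-- Nakayama for a nilpotent ideal, no finiteness: `N' + I N = N` implies `N' = N`. -/
theorem eq_top_of_sup_smul_top_eq_top {I : Ideal R} (hI : IsNilpotent I)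
    {N : Type w} [AddCommGroup N] [Module R N] (N' : Submodule R N)
    (h : N' ⊔ I • (⊤ : Submodule R N) = ⊤) : N' = ⊤ := by
  obtain ⟨n, hn⟩ := hI
  have key : ∀ m : ℕ, (⊤ : Submodule R N) ≤ N' ⊔ (I ^ m) • (⊤ : Submodule R N) := by
    intro m
    induction m with
    | zero => simp
    | succ m ih =>
      calc (⊤ : Submodule R N) = N' ⊔ I • (⊤ : Submodule R N) := h.symm
        _ ≤ N' ⊔ I • (N' ⊔ (I ^ m) • (⊤ : Submodule R N)) :=
            sup_le_sup_left (Submodule.smul_mono le_rfl ih) _
        _ = N' ⊔ (I • N' ⊔ I • (I ^ m) • (⊤ : Submodule R N)) := by rw [Submodule.smul_sup]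
        _ ≤ N' ⊔ (I ^ (m + 1)) • (⊤ : Submodule R N) := by
            rw [pow_succ', Submodule.mul_smul]
            refine sup_le le_sup_left (sup_le ?_ le_sup_right)
            exact le_trans Submodule.smul_le_right le_sup_left
  have := key n
  rw [hn, Ideal.zero_eq_bot, Submodule.bot_smul, sup_bot_eq] at this
  exact top_le_iff.mp this

/-- A module with `K = I K` for a nilpotent ideal `I` is zero. -/
theorem subsingleton_of_smul_top_eq_top {I : Ideal R} (hI : IsNilpotent I)
    {K : Type w} [AddCommGroup K] [Module R K]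
    (h : I • (⊤ : Submodule R K) = ⊤) : Subsingleton K := by
  have h1 : (⊥ : Submodule R K) = ⊤ :=
    eq_top_of_sup_smul_top_eq_top hI ⊥ (by rw [bot_sup_eq, h])
  refine ⟨fun a b => ?_⟩
  have ha : a ∈ (⊥ : Submodule R K) := by rw [h1]; trivial
  have hb : b ∈ (⊥ : Submodule R K) := by rw [h1]; trivial
  rw [(Submodule.mem_bot R).mp ha, (Submodule.mem_bot R).mp hb]

end Basic

section Lift

variable {R : Type u} {S : Type v} [CommRing R] [CommRing S] [Algebra R S]

/-- An `R`-linear map whose base change to `S` vanishes has image in `I • N`. -/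
theorem map_mem_smul_top_of_baseChange_eq_zero (hsurj : Function.Surjective (algebraMap R S))
    {M : Type w} {N : Type w} [AddCommGroup M] [Module R M] [AddCommGroup N] [Module R N]
    (ν : M →ₗ[R] N) (h : ν.baseChange S = 0) (x : M) :
    ν x ∈ (RingHom.ker (algebraMap R S)) • (⊤ : Submodule R N) := by
  apply mem_smul_top_of_tmul_eq_zero hsurj
  have := LinearMap.congr_fun h ((1 : S) ⊗ₜ[R] x)
  simpa using this

/-- Nilpotent Nakayama, surjectivity form. -/
theorem surjective_of_baseChange_surjective (hsurj : Function.Surjective (algebraMap R S))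
    (hnil : IsNilpotent (RingHom.ker (algebraMap R S)))
    {M : Type w} {N : Type w} [AddCommGroup M] [Module R M] [AddCommGroup N] [Module R N]
    (φ : M →ₗ[R] N) (h : Function.Surjective (φ.baseChange S)) : Function.Surjective φ := by
  rw [← LinearMap.range_eq_top]
  apply eq_top_of_sup_smul_top_eq_top hnil
  rw [eq_top_iff]
  intro y _
  obtain ⟨z, hz⟩ := h ((1 : S) ⊗ₜ[R] y)
  obtain ⟨m, rfl⟩ := TensorProduct.mk_surjective R M S hsurj z
  have h0 : (1 : S) ⊗ₜ[R] (y - φ m) = 0 := by
    rw [TensorProduct.tmul_sub, ← hz]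
    simp
  have h1 := mem_smul_top_of_tmul_eq_zero hsurj h0
  have : y = φ m + (y - φ m) := by abel
  rw [this]
  exact Submodule.add_mem_sup (LinearMap.mem_range_self φ m) h1

/-- An endomorphism with vanishing base change along a nilpotent surjection is nilpotent. -/
theorem isNilpotent_of_baseChange_eq_zero (hsurj : Function.Surjective (algebraMap R S))
    (hnil : IsNilpotent (RingHom.ker (algebraMap R S)))
    {M : Type w} [AddCommGroup M] [Module R M]
    (ν : Module.End R M) (h : ν.baseChange S = 0) : IsNilpotent ν := by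
  set I := RingHom.ker (algebraMap R S) with hI
  obtain ⟨n, hn⟩ := hnil
  refine ⟨n, ?_⟩
  have key : ∀ m : ℕ, ∀ x : M, (ν ^ m) x ∈ (I ^ m) • (⊤ : Submodule R M) := by
    intro m
    induction m with
    | zero => intro x; simp
    | succ m ih =>
      intro x
      rw [pow_succ' ν m, Module.End.mul_apply, pow_succ I m, Submodule.mul_smul]
      have h1 : (ν ^ m) x ∈ (I ^ m) • (⊤ : Submodule R M) := ih x
      have h2 : Submodule.map ν ((I ^ m) • (⊤ : Submodule R M)) ≤
          (I ^ m) • (I • (⊤ : Submodule R M)) := by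
        rw [Submodule.map_smul'']
        apply Submodule.smul_mono le_rfl
        rintro _ ⟨y, _, rfl⟩
        exact map_mem_smul_top_of_baseChange_eq_zero hsurj ν h y
      exact h2 (Submodule.mem_map_of_mem h1)
  ext x
  have := key n x
  rw [hn, Ideal.zero_eq_bot, Submodule.bot_smul, Submodule.mem_bot] at this
  simpa using this

/-- An endomorphism whose base change is the identity is an automorphism. -/
theorem isUnit_of_baseChange_eq_id (hsurj : Function.Surjective (algebraMap R S))
    (hnil : IsNilpotent (RingHom.ker (algebraMap R S)))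
    {M : Type w} [AddCommGroup M] [Module R M]
    (θ : Module.End R M) (h : θ.baseChange S = LinearMap.id) : IsUnit θ := by
  have h1 : IsNilpotent (θ - 1) := by
    apply isNilpotent_of_baseChange_eq_zero hsurj hnil
    rw [LinearMap.baseChange_sub, h]
    have : (1 : Module.End R M) = LinearMap.id := rfl
    rw [this, LinearMap.baseChange_id]
    exact sub_self (LinearMap.id : S ⊗[R] M →ₗ[S] S ⊗[R] M)
  have := h1.isUnit_add_one
  simpa using this

/-- Lifting linear maps out of a projective module. -/
theorem exists_lift_linearMap (hsurj : Function.Surjective (algebraMap R S))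
    {P : Type w} {Q : Type w} [AddCommGroup P] [Module R P] [AddCommGroup Q] [Module R Q]
    [Module.Projective R P] (g : S ⊗[R] P →ₗ[S] S ⊗[R] Q) :
    ∃ φ : P →ₗ[R] Q, φ.baseChange S = g := by
  obtain ⟨φ, hφ⟩ := Module.projective_lifting_property (TensorProduct.mk R S Q 1)
    ((g.restrictScalars R) ∘ₗ (TensorProduct.mk R S P 1)) (TensorProduct.mk_surjective R Q S hsurj)
  refine ⟨φ, ?_⟩
  apply TensorProduct.AlgebraTensorModule.curry_injective
  ext p
  have := LinearMap.congr_fun hφ p
  simpa using this

/-- Lifting isomorphisms between projective modules (no finiteness needed). -/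
theorem exists_lift_linearEquiv (hsurj : Function.Surjective (algebraMap R S))
    (hnil : IsNilpotent (RingHom.ker (algebraMap R S)))
    {P : Type w} {Q : Type w} [AddCommGroup P] [Module R P] [AddCommGroup Q] [Module R Q]
    [Module.Projective R P] [Module.Projective R Q] (g : S ⊗[R] P ≃ₗ[S] S ⊗[R] Q) :
    ∃ φ : P ≃ₗ[R] Q, φ.toLinearMap.baseChange S = g.toLinearMap := by
  obtain ⟨φ, hφ⟩ := exists_lift_linearMap hsurj g.toLinearMap
  obtain ⟨ψ, hψ⟩ := exists_lift_linearMap hsurj g.symm.toLinearMap
  have h1 : IsUnit (ψ ∘ₗ φ : Module.End R P) := by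
    apply isUnit_of_baseChange_eq_id hsurj hnil
    rw [LinearMap.baseChange_comp, hφ, hψ]
    ext; simp
  have h2 : IsUnit (φ ∘ₗ ψ : Module.End R Q) := by
    apply isUnit_of_baseChange_eq_id hsurj hnil
    rw [LinearMap.baseChange_comp, hφ, hψ]
    ext; simp
  have hinj : Function.Injective φ := by
    have := (Module.End.isUnit_iff _).mp h1
    exact Function.Injective.of_comp (f := ψ) this.injective
  have hsur : Function.Surjective φ := by
    have := (Module.End.isUnit_iff _).mp h2
    exact Function.Surjective.of_comp (g := ψ) this.surjective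
  exact ⟨LinearEquiv.ofBijective φ ⟨hinj, hsur⟩, hφ⟩

end Lift

section LiftModule

variable {R : Type u} {S : Type v} [CommRing R] [CommRing S] [Algebra R S]

/-- The base change ring homomorphism `End_R(F) →+* End_S(S ⊗ F)`. -/
def endBaseChange (F : Type w) [AddCommGroup F] [Module R F] :
    Module.End R F →+* Module.End S (S ⊗[R] F) where
  toFun θ := θ.baseChange S
  map_one' := LinearMap.baseChange_id
  map_mul' a b := LinearMap.baseChange_comp b a
  map_zero' := LinearMap.baseChange_zero
  map_add' a b := LinearMap.baseChange_add a b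

@[simp] theorem endBaseChange_apply (F : Type w) [AddCommGroup F] [Module R F]
    (θ : Module.End R F) : endBaseChange (S := S) F θ = θ.baseChange S := rfl

/-- Idempotent endomorphisms of `S ⊗ F` lift to idempotent endomorphisms of `F`, for `F`
projective and `R → S` surjective with nilpotent kernel. -/
theorem exists_lift_idempotent (hsurj : Function.Surjective (algebraMap R S))
    (hnil : IsNilpotent (RingHom.ker (algebraMap R S)))
    (F : Type w) [AddCommGroup F] [Module R F] [Module.Projective R F]
    (ebar : Module.End S (S ⊗[R] F)) (he : IsIdempotentElem ebar) :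
    ∃ e : Module.End R F, IsIdempotentElem e ∧ e.baseChange S = ebar := by
  refine exists_isIdempotentElem_eq_of_ker_isNilpotent (endBaseChange (S := S) F) ?_ ebar ?_ he
  · intro ν hν
    exact isNilpotent_of_baseChange_eq_zero hsurj hnil ν hν
  · obtain ⟨φ, hφ⟩ := exists_lift_linearMap hsurj ebar
    exact ⟨φ, hφ⟩

/-- Lifting finite projective modules along a surjection with nilpotent kernel. -/
theorem exists_lift_finite_projective (hsurj : Function.Surjective (algebraMap R S))
    (hnil : IsNilpotent (RingHom.ker (algebraMap R S)))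
    (Pbar : Type w) [AddCommGroup Pbar] [Module S Pbar] [Module.Finite S Pbar]
    [Module.Projective S Pbar] :
    ∃ (P : Type u) (_ : AddCommGroup P) (_ : Module R P), Module.Finite R P ∧
      Module.Projective R P ∧ Nonempty (S ⊗[R] P ≃ₗ[S] Pbar) := by
  obtain ⟨n, f, g, -, -, hfg⟩ := Module.Finite.exists_comp_eq_id_of_projective S Pbar
  let can : S ⊗[R] (Fin n → R) ≃ₗ[S] (Fin n → S) := TensorProduct.piScalarRight R S S (Fin n)
  let ebar : Module.End S (S ⊗[R] (Fin n → R)) :=
    can.symm.toLinearMap ∘ₗ g ∘ₗ f ∘ₗ can.toLinearMap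
  have hfg' : ∀ x, f (g x) = x := fun x => LinearMap.congr_fun hfg x
  have hebar : IsIdempotentElem ebar := by
    ext x
    simp [ebar, hfg']
  obtain ⟨e, he, hee⟩ := exists_lift_idempotent hsurj hnil (Fin n → R) ebar hebar
  have he' : ∀ x, e (e x) = e x := fun x => LinearMap.congr_fun he.eq x
  let P : Submodule R (Fin n → R) := LinearMap.range e
  let ι : P →ₗ[R] (Fin n → R) := P.subtype
  let π : (Fin n → R) →ₗ[R] P := e.rangeRestrict
  have hπι : π ∘ₗ ι = LinearMap.id := by
    ext ⟨x, y, rfl⟩ : 1
    apply Subtype.ext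
    simp [π, ι, he']
  have hιπ : ι ∘ₗ π = e := by
    refine LinearMap.ext fun x => ?_
    simp [π, ι]
  refine ⟨P, inferInstance, inferInstance, ?_, ?_, ?_⟩
  · exact Module.Finite.of_surjective π (LinearMap.surjective_rangeRestrict e)
  · exact Module.Projective.of_split ι π hπι
  · have h1 : π.baseChange S ∘ₗ ι.baseChange S = LinearMap.id := by
      rw [← LinearMap.baseChange_comp, hπι, LinearMap.baseChange_id]
    have h2 : ι.baseChange S ∘ₗ π.baseChange S = ebar := by
      rw [← LinearMap.baseChange_comp, hιπ, hee]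
    let a : S ⊗[R] P →ₗ[S] Pbar := f ∘ₗ can.toLinearMap ∘ₗ ι.baseChange S
    let b : Pbar →ₗ[S] S ⊗[R] P := π.baseChange S ∘ₗ can.symm.toLinearMap ∘ₗ g
    have h1' : ∀ x, π.baseChange S (ι.baseChange S x) = x := fun x => LinearMap.congr_fun h1 x
    have h2' : ∀ x, ι.baseChange S (π.baseChange S x) = ebar x :=
      fun x => LinearMap.congr_fun h2 x
    refine ⟨LinearEquiv.ofLinearMap a b ?_ ?_⟩
    · refine LinearMap.ext fun x => ?_
      simp only [a, b, LinearMap.comp_apply, LinearEquiv.coe_coe, LinearMap.id_apply, h2']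
      simp [ebar, hfg']
    · refine LinearMap.ext fun x => ?_
      have h3 : can.symm (g (f (can (ι.baseChange S x)))) = ebar (ι.baseChange S x) := rfl
      simp only [a, b, LinearMap.comp_apply, LinearEquiv.coe_coe, LinearMap.id_apply]
      rw [h3, ← h2', h1', h1']

/-- Lifting invertible modules along a surjection with nilpotent kernel. -/
theorem exists_lift_invertible (hsurj : Function.Surjective (algebraMap R S))
    (hnil : IsNilpotent (RingHom.ker (algebraMap R S)))
    (Pbar : Type w) [AddCommGroup Pbar] [Module S Pbar] [Module.Invertible S Pbar] :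
    ∃ (P : Type u) (_ : AddCommGroup P) (_ : Module R P), Module.Invertible R P ∧
      Nonempty (S ⊗[R] P ≃ₗ[S] Pbar) := by
  obtain ⟨P, _, _, hPf, hPp, ⟨eP⟩⟩ := exists_lift_finite_projective hsurj hnil Pbar
  obtain ⟨Q, _, _, hQf, hQp, ⟨eQ⟩⟩ :=
    exists_lift_finite_projective hsurj hnil (Module.Dual S Pbar)
  have e1 : S ⊗[R] (P ⊗[R] Q) ≃ₗ[S] S ⊗[R] R :=
    (TensorProduct.AlgebraTensorModule.distribBaseChange R S P Q) ≪≫ₗ
      (TensorProduct.congr eP eQ) ≪≫ₗ (TensorProduct.comm S Pbar (Module.Dual S Pbar)) ≪≫ₗ
      (Module.Invertible.linearEquiv S Pbar) ≪≫ₗ (TensorProduct.AlgebraTensorModule.rid R S S).symm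
  obtain ⟨φ, -⟩ := exists_lift_linearEquiv hsurj hnil e1
  exact ⟨P, inferInstance, inferInstance, Module.Invertible.left φ, ⟨eP⟩⟩

/-- Lifting a trivialisation of a projective module. -/
theorem exists_lift_trivialization (hsurj : Function.Surjective (algebraMap R S))
    (hnil : IsNilpotent (RingHom.ker (algebraMap R S)))
    {P : Type u} [AddCommGroup P] [Module R P] [Module.Projective R P]
    (g : S ⊗[R] P ≃ₗ[S] S) :
    ∃ φ : P ≃ₗ[R] R, ∀ p : P, g ((1 : S) ⊗ₜ[R] p) = algebraMap R S (φ p) := by
  obtain ⟨φ, hφ⟩ := exists_lift_linearEquiv hsurj hnil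
    (g ≪≫ₗ (TensorProduct.AlgebraTensorModule.rid R S S).symm)
  refine ⟨φ, fun p => ?_⟩
  have := LinearMap.congr_fun hφ ((1 : S) ⊗ₜ[R] p)
  simp only [LinearMap.baseChange_tmul, LinearEquiv.coe_coe, LinearEquiv.trans_apply] at this
  have h2 := congrArg (TensorProduct.AlgebraTensorModule.rid R S S) this
  simp only [LinearEquiv.apply_symm_apply] at h2
  rw [← h2]
  simp [Algebra.smul_def]

end LiftModule

end Fermat.Agent.JAC.Smooth.LiftProj85
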