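/-
Programme JAC (S25), work package A6 (formal smoothness), part 2 (helper85).

Lifting two-chart diagrams `M₀ → M₀₁ ← M₁` of invertible modules over a cospan of rings
`R₀ → R₀₁ ← R₁` along surjections `Rᵢ → Rᵢ'` with nilpotent kernels.  Mathlib only.
-/
import Mathlib
import Fermat.Agent.JAC.Smooth.LiftProj85

set_option autoImplicit false

open TensorProduct

universe u v w

namespace Fermat.Agent.JAC.Smooth.LiftDiagram85

open Fermat.Agent.JAC.Smooth.LiftProj85

section IsoOfBaseChange

variable {R : Type u} {S : Type v} [CommRing R] [CommRing S] [Algebra R S]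

/-- A base change map along a surjective ring homomorphism is surjective. -/
theorem surjective_of_isBaseChange (hsurj : Function.Surjective (algebraMap R S))
    {M : Type w} {X : Type*} [AddCommGroup M] [Module R M] [AddCommGroup X] [Module R X]
    [Module S X] [IsScalarTower R S X] {p : M →ₗ[R] X} (hp : IsBaseChange S p) :
    Function.Surjective p := by
  intro x
  obtain ⟨m, hm⟩ := TensorProduct.mk_surjective R M S hsurj (hp.equiv.symm x)
  refine ⟨m, ?_⟩
  have : hp.equiv ((1 : S) ⊗ₜ[R] m) = x := by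
    rw [show (1 : S) ⊗ₜ[R] m = hp.equiv.symm x from hm, LinearEquiv.apply_symm_apply]
  rw [hp.equiv_tmul, one_smul] at this
  exact this

/-- Two projective modules with a common base change along a surjection with nilpotent kernel are
isomorphic, compatibly with the base change maps. -/
theorem exists_linearEquiv_of_isBaseChange (hsurj : Function.Surjective (algebraMap R S))
    (hnil : IsNilpotent (RingHom.ker (algebraMap R S)))
    {P Q : Type w} {X : Type*} [AddCommGroup P] [Module R P] [AddCommGroup Q] [Module R Q]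
    [AddCommGroup X] [Module R X] [Module S X] [IsScalarTower R S X]
    [Module.Projective R P] [Module.Projective R Q]
    {p : P →ₗ[R] X} {q : Q →ₗ[R] X} (hp : IsBaseChange S p) (hq : IsBaseChange S q) :
    ∃ φ : P ≃ₗ[R] Q, ∀ x, q (φ x) = p x := by
  obtain ⟨φ, hφ⟩ := exists_lift_linearEquiv hsurj hnil (hp.equiv ≪≫ₗ hq.equiv.symm)
  refine ⟨φ, fun x => ?_⟩
  have h1 := LinearMap.congr_fun hφ ((1 : S) ⊗ₜ[R] x)
  simp only [LinearMap.baseChange_tmul, LinearEquiv.coe_coe, LinearEquiv.trans_apply] at h1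
  have h2 := congrArg hq.equiv h1
  rw [LinearEquiv.apply_symm_apply, hq.equiv_tmul, hp.equiv_tmul, one_smul, one_smul] at h2
  exact h2

/-- Lifting an invertible module, `IsBaseChange` form. -/
theorem exists_invertible_isBaseChange (hsurj : Function.Surjective (algebraMap R S))
    (hnil : IsNilpotent (RingHom.ker (algebraMap R S)))
    (X : Type w) [AddCommGroup X] [Module R X] [Module S X] [IsScalarTower R S X]
    [Module.Invertible S X] :
    ∃ (P : Type u) (_ : AddCommGroup P) (_ : Module R P) (p : P →ₗ[R] X),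
      Module.Invertible R P ∧ IsBaseChange S p := by
  obtain ⟨P, _, _, hP, ⟨e⟩⟩ := exists_lift_invertible hsurj hnil X
  refine ⟨P, inferInstance, inferInstance,
    (e.toLinearMap.restrictScalars R) ∘ₗ (TensorProduct.mk R S P 1), hP, ?_⟩
  exact IsBaseChange.of_equiv e (fun x => rfl)

end IsoOfBaseChange

section Core

variable {R0 R1 R01 : Type u} [CommRing R0] [CommRing R1] [CommRing R01]
  [Algebra R0 R01] [Algebra R1 R01]
variable {R0' R1' R01' : Type u} [CommRing R0'] [CommRing R1'] [CommRing R01']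
  [Algebra R0' R01'] [Algebra R1' R01']
variable [Algebra R0 R0'] [Algebra R1 R1'] [Algebra R01 R01']
  [Algebra R0 R01'] [IsScalarTower R0 R01 R01'] [IsScalarTower R0 R0' R01']
  [Algebra R1 R01'] [IsScalarTower R1 R01 R01'] [IsScalarTower R1 R1' R01']
variable {M0' M1' M01' : Type u} [AddCommGroup M0'] [AddCommGroup M1'] [AddCommGroup M01']
  [Module R0' M0'] [Module R1' M1'] [Module R01' M01']
  [Module R0' M01'] [IsScalarTower R0' R01' M01'] [Module R1' M01'] [IsScalarTower R1' R01' M01']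
  [Module R0 M0'] [IsScalarTower R0 R0' M0']
  [Module R1 M1'] [IsScalarTower R1 R1' M1']
  [Module R01 M01'] [IsScalarTower R01 R01' M01']
  [Module R0 M01'] [IsScalarTower R0 R0' M01'] [IsScalarTower R0 R01' M01']
  [IsScalarTower R0 R01 M01']
  [Module R1 M01'] [IsScalarTower R1 R1' M01'] [IsScalarTower R1 R01' M01']
  [IsScalarTower R1 R01 M01']
  [Module.Invertible R0' M0'] [Module.Invertible R1' M1']

/-- Core lifting theorem, `IsBaseChange` form, with all restricted module structures given as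
instances. -/
theorem exists_lift_cospan_core
    (hsurj0 : Function.Surjective (algebraMap R0 R0'))
    (hnil0 : IsNilpotent (RingHom.ker (algebraMap R0 R0')))
    (hsurj1 : Function.Surjective (algebraMap R1 R1'))
    (hnil1 : IsNilpotent (RingHom.ker (algebraMap R1 R1')))
    (hsurj01 : Function.Surjective (algebraMap R01 R01'))
    (hnil01 : IsNilpotent (RingHom.ker (algebraMap R01 R01')))
    (ρ0' : M0' →ₗ[R0'] M01') (ρ1' : M1' →ₗ[R1'] M01')
    (h0' : IsBaseChange R01' ρ0') (h1' : IsBaseChange R01' ρ1') :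
    ∃ (M0 : Type u) (_ : AddCommGroup M0) (_ : Module R0 M0)
      (M1 : Type u) (_ : AddCommGroup M1) (_ : Module R1 M1)
      (M01 : Type u) (_ : AddCommGroup M01) (_ : Module R01 M01)
      (_ : Module R0 M01) (_ : IsScalarTower R0 R01 M01)
      (_ : Module R1 M01) (_ : IsScalarTower R1 R01 M01)
      (ρ0 : M0 →ₗ[R0] M01) (ρ1 : M1 →ₗ[R1] M01)
      (q0 : M0 →ₗ[R0] M0') (q1 : M1 →ₗ[R1] M1') (q01 : M01 →ₗ[R01] M01'),
      Module.Invertible R0 M0 ∧ Module.Invertible R1 M1 ∧
      IsBaseChange R01 ρ0 ∧ IsBaseChange R01 ρ1 ∧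
      IsBaseChange R0' q0 ∧ IsBaseChange R1' q1 ∧ IsBaseChange R01' q01 ∧
      (∀ m, q01 (ρ0 m) = ρ0' (q0 m)) ∧ (∀ m, q01 (ρ1 m) = ρ1' (q1 m)) := by
  obtain ⟨M0, _, _, q0, hM0, hq0⟩ := exists_invertible_isBaseChange hsurj0 hnil0 M0'
  obtain ⟨M1, _, _, q1, hM1, hq1⟩ := exists_invertible_isBaseChange hsurj1 hnil1 M1'
  let ρ0 : M0 →ₗ[R0] R01 ⊗[R0] M0 := TensorProduct.mk R0 R01 M0 1
  have hρ0 : IsBaseChange R01 ρ0 := TensorProduct.isBaseChange R0 M0 R01
  let ν1 : M1 →ₗ[R1] R01 ⊗[R1] M1 := TensorProduct.mk R1 R01 M1 1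
  have hν1 : IsBaseChange R01 ν1 := TensorProduct.isBaseChange R1 M1 R01
  let c0 : M0 →ₗ[R0] M01' := (ρ0'.restrictScalars R0) ∘ₗ q0
  have hc0 : IsBaseChange R01' c0 := IsBaseChange.comp hq0 h0'
  let q01 : R01 ⊗[R0] M0 →ₗ[R01] M01' := hρ0.lift c0
  have hq01c : (q01.restrictScalars R0) ∘ₗ ρ0 = c0 := hρ0.lift_comp c0
  have hq01 : IsBaseChange R01' q01 := IsBaseChange.of_comp hρ0 (by
    have : ((q01 : R01 ⊗[R0] M0 →ₗ[R0] M01') ∘ₗ ρ0) = c0 := hq01c
    rw [this]; exact hc0)
  let c1 : M1 →ₗ[R1] M01' := (ρ1'.restrictScalars R1) ∘ₗ q1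
  have hc1 : IsBaseChange R01' c1 := IsBaseChange.comp hq1 h1'
  let r01 : R01 ⊗[R1] M1 →ₗ[R01] M01' := hν1.lift c1
  have hr01c : (r01.restrictScalars R1) ∘ₗ ν1 = c1 := hν1.lift_comp c1
  have hr01 : IsBaseChange R01' r01 := IsBaseChange.of_comp hν1 (by
    have : ((r01 : R01 ⊗[R1] M1 →ₗ[R1] M01') ∘ₗ ν1) = c1 := hr01c
    rw [this]; exact hc1)
  obtain ⟨φ, hφ⟩ := exists_linearEquiv_of_isBaseChange hsurj01 hnil01 hr01 hq01
  let ρ1 : M1 →ₗ[R1] R01 ⊗[R0] M0 := (φ.toLinearMap.restrictScalars R1) ∘ₗ ν1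
  have hρ1 : IsBaseChange R01 ρ1 :=
    IsBaseChange.of_equiv (hν1.equiv ≪≫ₗ φ) (fun x => by
      simp [ρ1, ν1, hν1.equiv_tmul])
  refine ⟨M0, inferInstance, inferInstance, M1, inferInstance, inferInstance,
    R01 ⊗[R0] M0, inferInstance, inferInstance, inferInstance, inferInstance, inferInstance,
    inferInstance, ρ0, ρ1, q0, q1, q01, hM0, hM1, hρ0, hρ1, hq0, hq1, hq01, ?_, ?_⟩
  · intro m
    exact LinearMap.congr_fun hq01c m
  · intro m
    have h1 : q01 (ρ1 m) = r01 (ν1 m) := hφ (ν1 m)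
    rw [h1]
    exact LinearMap.congr_fun hr01c m

end Core

section Wrapper

variable (R0 R1 R01 : Type u) [CommRing R0] [CommRing R1] [CommRing R01]
  [Algebra R0 R01] [Algebra R1 R01]
variable (R0' R1' R01' : Type u) [CommRing R0'] [CommRing R1'] [CommRing R01']
  [Algebra R0' R01'] [Algebra R1' R01']
variable [Algebra R0 R0'] [Algebra R1 R1'] [Algebra R01 R01']
variable {M0' M1' M01' : Type u} [AddCommGroup M0'] [AddCommGroup M1'] [AddCommGroup M01']
  [Module R0' M0'] [Module R1' M1'] [Module R01' M01']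
  [Module R0' M01'] [IsScalarTower R0' R01' M01'] [Module R1' M01'] [IsScalarTower R1' R01' M01']

/-- A lift of a diagram `M₀' → M₀₁' ← M₁'` over the cospan `R₀' → R₀₁' ← R₁'` to a diagram of
invertible modules over the cospan `R₀ → R₀₁ ← R₁`, together with the identifications of its base
change with the given diagram. -/
structure DiagramLift (ρ0' : M0' →ₗ[R0'] M01') (ρ1' : M1' →ₗ[R1'] M01') : Type (u + 1) where
  /-- the module on the first chart -/
  M0 : Type u
  /-- the module on the second chart -/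
  M1 : Type u
  /-- the module on the overlap -/
  M01 : Type u
  [acg0 : AddCommGroup M0]
  [mod0 : Module R0 M0]
  [acg1 : AddCommGroup M1]
  [mod1 : Module R1 M1]
  [acg01 : AddCommGroup M01]
  [mod01 : Module R01 M01]
  [mod001 : Module R0 M01]
  [tower0 : IsScalarTower R0 R01 M01]
  [mod101 : Module R1 M01]
  [tower1 : IsScalarTower R1 R01 M01]
  inv0 : Module.Invertible R0 M0
  inv1 : Module.Invertible R1 M1
  /-- restriction from the first chart to the overlap -/
  ρ0 : M0 →ₗ[R0] M01
  /-- restriction from the second chart to the overlap -/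
  ρ1 : M1 →ₗ[R1] M01
  isBaseChange0 : IsBaseChange R01 ρ0
  isBaseChange1 : IsBaseChange R01 ρ1
  /-- identification of the base change on the first chart -/
  e0 : R0' ⊗[R0] M0 ≃ₗ[R0'] M0'
  /-- identification of the base change on the second chart -/
  e1 : R1' ⊗[R1] M1 ≃ₗ[R1'] M1'
  /-- identification of the base change on the overlap -/
  e01 : R01' ⊗[R01] M01 ≃ₗ[R01'] M01'
  comm0 : ∀ m : M0, e01 ((1 : R01') ⊗ₜ[R01] ρ0 m) = ρ0' (e0 ((1 : R0') ⊗ₜ[R0] m))
  comm1 : ∀ m : M1, e01 ((1 : R01') ⊗ₜ[R01] ρ1 m) = ρ1' (e1 ((1 : R1') ⊗ₜ[R1] m))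

variable [Algebra R0 R01'] [IsScalarTower R0 R01 R01'] [IsScalarTower R0 R0' R01']
  [Algebra R1 R01'] [IsScalarTower R1 R01 R01'] [IsScalarTower R1 R1' R01']
  [Module.Invertible R0' M0'] [Module.Invertible R1' M1']

/-- **Lifting of diagrams** (formal smoothness of the two-chart Picard functor): a diagram of
invertible modules over the primed cospan lifts to the unprimed cospan if the three ring maps
`Rᵢ → Rᵢ'` are surjective with nilpotent kernels. -/
theorem nonempty_diagramLift
    (hsurj0 : Function.Surjective (algebraMap R0 R0'))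
    (hnil0 : IsNilpotent (RingHom.ker (algebraMap R0 R0')))
    (hsurj1 : Function.Surjective (algebraMap R1 R1'))
    (hnil1 : IsNilpotent (RingHom.ker (algebraMap R1 R1')))
    (hsurj01 : Function.Surjective (algebraMap R01 R01'))
    (hnil01 : IsNilpotent (RingHom.ker (algebraMap R01 R01')))
    (ρ0' : M0' →ₗ[R0'] M01') (ρ1' : M1' →ₗ[R1'] M01')
    (h0' : IsBaseChange R01' ρ0') (h1' : IsBaseChange R01' ρ1') :
    Nonempty (DiagramLift R0 R1 R01 R0' R1' R01' ρ0' ρ1') := by
  let i1 : Module R0 M0' := Module.compHom M0' (algebraMap R0 R0')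
  have : IsScalarTower R0 R0' M0' := IsScalarTower.of_algebraMap_smul fun _ _ => rfl
  let i2 : Module R1 M1' := Module.compHom M1' (algebraMap R1 R1')
  have : IsScalarTower R1 R1' M1' := IsScalarTower.of_algebraMap_smul fun _ _ => rfl
  let i3 : Module R01 M01' := Module.compHom M01' (algebraMap R01 R01')
  have : IsScalarTower R01 R01' M01' := IsScalarTower.of_algebraMap_smul fun _ _ => rfl
  let i4 : Module R0 M01' := Module.compHom M01' (algebraMap R0 R01')
  have : IsScalarTower R0 R01' M01' := IsScalarTower.of_algebraMap_smul fun _ _ => rfl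
  have : IsScalarTower R0 R0' M01' := IsScalarTower.of_algebraMap_smul fun r x => by
    rw [← algebraMap_smul R01' (algebraMap R0 R0' r) x, ← IsScalarTower.algebraMap_apply]
    rfl
  have : IsScalarTower R0 R01 M01' := IsScalarTower.of_algebraMap_smul fun r x => by
    change algebraMap R01 R01' (algebraMap R0 R01 r) • x = algebraMap R0 R01' r • x
    rw [← IsScalarTower.algebraMap_apply]
  let i5 : Module R1 M01' := Module.compHom M01' (algebraMap R1 R01')
  have : IsScalarTower R1 R01' M01' := IsScalarTower.of_algebraMap_smul fun _ _ => rfl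
  have : IsScalarTower R1 R1' M01' := IsScalarTower.of_algebraMap_smul fun r x => by
    rw [← algebraMap_smul R01' (algebraMap R1 R1' r) x, ← IsScalarTower.algebraMap_apply]
    rfl
  have : IsScalarTower R1 R01 M01' := IsScalarTower.of_algebraMap_smul fun r x => by
    change algebraMap R01 R01' (algebraMap R1 R01 r) • x = algebraMap R1 R01' r • x
    rw [← IsScalarTower.algebraMap_apply]
  obtain ⟨M0, _, _, M1, _, _, M01, _, _, _, _, _, _, ρ0, ρ1, q0, q1, q01, hM0, hM1, hρ0, hρ1,
    hq0, hq1, hq01, hc0, hc1⟩ := exists_lift_cospan_core hsurj0 hnil0 hsurj1 hnil1 hsurj01 hnil01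
      ρ0' ρ1' h0' h1'
  refine ⟨{
    M0 := M0, M1 := M1, M01 := M01, inv0 := hM0, inv1 := hM1, ρ0 := ρ0, ρ1 := ρ1,
    isBaseChange0 := hρ0, isBaseChange1 := hρ1,
    e0 := hq0.equiv, e1 := hq1.equiv, e01 := hq01.equiv, comm0 := ?_, comm1 := ?_ }⟩
  · intro m
    rw [hq01.equiv_tmul, hq0.equiv_tmul, one_smul, one_smul]
    exact hc0 m
  · intro m
    rw [hq01.equiv_tmul, hq1.equiv_tmul, one_smul, one_smul]
    exact hc1 m

/-- The same, for localisation diagrams: `R₀₁' = R₀'[1/t'] = R₁'[1/s']`, `R₀₁ = R₀[1/t] = R₁[1/s]`;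
the lifted diagram consists of localisation maps. -/
theorem nonempty_diagramLift_of_isLocalizedModule
    (t : R0) (s : R1) [IsLocalization.Away t R01] [IsLocalization.Away s R01]
    (t' : R0') (s' : R1') [IsLocalization.Away t' R01'] [IsLocalization.Away s' R01']
    (hsurj0 : Function.Surjective (algebraMap R0 R0'))
    (hnil0 : IsNilpotent (RingHom.ker (algebraMap R0 R0')))
    (hsurj1 : Function.Surjective (algebraMap R1 R1'))
    (hnil1 : IsNilpotent (RingHom.ker (algebraMap R1 R1')))
    (hsurj01 : Function.Surjective (algebraMap R01 R01'))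
    (hnil01 : IsNilpotent (RingHom.ker (algebraMap R01 R01')))
    (ρ0' : M0' →ₗ[R0'] M01') (ρ1' : M1' →ₗ[R1'] M01')
    [IsLocalizedModule (Submonoid.powers t') ρ0'] [IsLocalizedModule (Submonoid.powers s') ρ1'] :
    ∃ D : DiagramLift R0 R1 R01 R0' R1' R01' ρ0' ρ1',
      letI := D.acg0; letI := D.mod0; letI := D.acg1; letI := D.mod1; letI := D.acg01
      letI := D.mod01; letI := D.mod001; letI := D.mod101
      IsLocalizedModule (Submonoid.powers t) D.ρ0 ∧ IsLocalizedModule (Submonoid.powers s) D.ρ1 := by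
  obtain ⟨D⟩ := nonempty_diagramLift R0 R1 R01 R0' R1' R01' hsurj0 hnil0 hsurj1 hnil1 hsurj01
    hnil01 ρ0' ρ1' (IsLocalizedModule.isBaseChange (Submonoid.powers t') R01' ρ0')
    (IsLocalizedModule.isBaseChange (Submonoid.powers s') R01' ρ1')
  refine ⟨D, ?_, ?_⟩
  · let := D.acg0; let := D.mod0; let := D.acg01; let := D.mod01; let := D.mod001
    have := D.tower0
    exact (isLocalizedModule_iff_isBaseChange (Submonoid.powers t) R01 D.ρ0).mpr D.isBaseChange0
  · let := D.acg1; let := D.mod1; let := D.acg01; let := D.mod01; let := D.mod101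
    have := D.tower1
    exact (isLocalizedModule_iff_isBaseChange (Submonoid.powers s) R01 D.ρ1).mpr D.isBaseChange1

end Wrapper

end Fermat.Agent.JAC.Smooth.LiftDiagram85
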