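/-
Programme JAC (S25), chapter Smooth.  Owner: helper70.

**Wiring of formal smoothness**: from the frozen structure `RepresentsRelSubPic c ε P D` and the
functor-level lifting property (FS) of `P`-rigidified line bundles along square-zero thickenings
of affine `R`-schemes to `HasInfinitesimalLifting D.toBase` (helper27's B6.2), hence to
`Smooth D.toBase` when `D.toBase` is locally of finite presentation.
-/
import Mathlib
import Fermat.Prelude.Def_AlgebraicGeometry_RelativePicardFunctor
import Fermat.Prelude.Def_AlgebraicGeometry_RepresentsRelSubPic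
import Fermat.Agent.JAC.Prop.FormallySmooth27

set_option autoImplicit false

universe u

open CategoryTheory CategoryTheory.Limits AlgebraicGeometry AlgebraicGeometry.RelPicard
  NeronModelInfra GoodReductionJacobian

namespace Fermat.Agent.JAC.Smooth.RepSmooth70

open Fermat.Agent.JAC.Prop.FormallySmooth27

variable {R : Type u} [CommRing R] {C : Scheme.{u}} {c : C ⟶ Spec (CommRingCat.of R)}
  {ε : SchemeHomOver (𝟙 (Spec (CommRingCat.of R))) c} {P : SubPicCondition c ε}
  {D : RelativePic0Designation R c}

/-- The structure map of `Spec (B ⧸ I)` factors through that of `Spec B`. -/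
theorem specMap_mk_comp (B : Type u) [CommRing B] [Algebra R B] (I : Ideal B) :
    Spec.map (CommRingCat.ofHom (Ideal.Quotient.mk I)) ≫
        Spec.map (CommRingCat.ofHom (algebraMap R B)) =
      Spec.map (CommRingCat.ofHom (algebraMap R (B ⧸ I))) := by
  rw [← Spec.map_comp]
  rfl

/-- The closed immersion `Spec (B ⧸ I) ⟶ Spec B` as a morphism over `Spec R`. -/
noncomputable def thickening (B : Type u) [CommRing B] [Algebra R B] (I : Ideal B) :
    SchemeHomOver (Spec.map (CommRingCat.ofHom (algebraMap R (B ⧸ I))))
      (Spec.map (CommRingCat.ofHom (algebraMap R B))) :=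
  ⟨Spec.map (CommRingCat.ofHom (Ideal.Quotient.mk I)), specMap_mk_comp B I⟩

variable (c ε P) in
/-- **(FS)** for the sub-Picard functor cut out by `P`: every `P`-rigidified line bundle over
`Spec (B ⧸ I)`, `I ^ 2 = 0`, is the restriction of a `P`-rigidified line bundle over `Spec B`. -/
def LiftsSquareZero : Prop :=
  ∀ (B : Type u) [CommRing B] [Algebra R B] (I : Ideal B), I ^ 2 = ⊥ →
    ∀ M' : RigidifiedLineBundle c ε (Spec.map (CommRingCat.ofHom (algebraMap R (B ⧸ I)))),
      P.P _ M' →
      ∃ M : RigidifiedLineBundle c ε (Spec.map (CommRingCat.ofHom (algebraMap R B))),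
        P.P _ M ∧ Nonempty ((M.pullbackAlong (thickening B I)).L ≅ M'.L)

/-- (FS) for a cut `P` follows from (FS) for all rigidified line bundles as soon as `P` is
insensitive to square-zero thickenings (e.g. a condition on geometric fibres). -/
theorem liftsSquareZero_of_top (FS : LiftsSquareZero c ε (SubPicCondition.top c ε))
    (hP : ∀ (B : Type u) [CommRing B] [Algebra R B] (I : Ideal B), I ^ 2 = ⊥ →
      ∀ M : RigidifiedLineBundle c ε (Spec.map (CommRingCat.ofHom (algebraMap R B))),
        P.P _ (M.pullbackAlong (thickening B I)) → P.P _ M) :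
    LiftsSquareZero c ε P := by
  intro B _ _ I hI M' hM'
  obtain ⟨M, -, ⟨e⟩⟩ := FS B I hI M' trivial
  exact ⟨M, hP B I hI M (P.congr _ _ _ ⟨e.symm⟩ hM'), ⟨e⟩⟩

/-- Pullback of rigidified line bundles is compatible with composition (up to isomorphism). -/
theorem pullbackAlong_postComp {T T' T'' : Scheme.{u}} {t : T ⟶ Spec (CommRingCat.of R)}
    {t' : T' ⟶ Spec (CommRingCat.of R)} {t'' : T'' ⟶ Spec (CommRingCat.of R)}
    (M : RigidifiedLineBundle c ε t) (φ : SchemeHomOver t' t) (χ : SchemeHomOver t'' t') :
    Nonempty ((M.pullbackAlong (postComp φ χ)).L ≅ ((M.pullbackAlong φ).pullbackAlong χ).L) :=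
  ⟨(Scheme.Modules.pullbackCongr (baseChangeSnd_comp c φ χ).symm).app M.L ≪≫
    ((Scheme.Modules.pullbackComp _ _).app M.L).symm⟩

/-- **The representing scheme of a formally smooth sub-Picard functor has the infinitesimal
lifting property.** -/
theorem hasInfinitesimalLifting_of_represents (h : RepresentsRelSubPic c ε P D)
    (FS : LiftsSquareZero c ε P) : HasInfinitesimalLifting D.toBase := by
  intro B _ _ I hI a ha
  -- the `P`-bundle over `Spec (B ⧸ I)` classified by `a`
  let a' : SchemeHomOver (Spec.map (CommRingCat.ofHom (algebraMap R (B ⧸ I)))) D.toBase := ⟨a, ha⟩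
  have hmem : P.P _ (h.poincare.pullbackAlong a') := P.pullback_mem _ _ a' _ h.poincare_mem
  obtain ⟨M, hM, ⟨e⟩⟩ := FS B I hI _ hmem
  -- the point of `D.P` classifying the lift
  let g := h.classify _ M hM
  obtain ⟨eg⟩ := h.classify_spec _ M hM
  refine ⟨g.1, g.2, ?_⟩
  have key : postComp g (thickening B I) = a' := by
    apply h.ext_of_iso
    obtain ⟨e1⟩ := pullbackAlong_postComp h.poincare g (thickening B I)
    exact ⟨e1 ≪≫ (RigidifiedLineBundle.pullbackAlong_congr (thickening B I) ⟨eg⟩).some ≪≫ e⟩
  exact congrArg Subtype.val key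

/-- **Smoothness of the representing scheme** from (FS) and local finite presentation. -/
theorem smooth_of_represents (h : RepresentsRelSubPic c ε P D)
    [LocallyOfFinitePresentation D.toBase] (FS : LiftsSquareZero c ε P) : Smooth D.toBase :=
  smooth_of_lifting (hasInfinitesimalLifting_of_represents h FS)

end Fermat.Agent.JAC.Smooth.RepSmooth70
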